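import Mathlib
import Fermat.Prelude.Def_ModularCurve_X0

/-!
# Formal vs analytic `q`-expansions: the bridge for `η`-products, `Δ` and `j`

Mathlib + Prelude (`Def_ModularCurve_X0`) only.
-/

set_option autoImplicit false

noncomputable section

namespace Fermat.Agent.S24.H940

open Complex Filter Topology

/-- Iterated derivatives pass to locally uniform limits of holomorphic functions. -/
theorem tendstoLocallyUniformlyOn_iteratedDeriv {ι : Type*} {φ : Filter ι} [φ.NeBot]
    {U : Set ℂ} (hU : IsOpen U) {F : ι → ℂ → ℂ} {f : ℂ → ℂ}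
    (hf : TendstoLocallyUniformlyOn F f φ U) (hF : ∀ᶠ n in φ, DifferentiableOn ℂ (F n) U)
    (m : ℕ) :
    TendstoLocallyUniformlyOn (fun n => iteratedDeriv m (F n)) (iteratedDeriv m f) φ U ∧
      ∀ᶠ n in φ, DifferentiableOn ℂ (iteratedDeriv m (F n)) U := by
  induction m with
  | zero =>
    simp only [iteratedDeriv_zero]
    exact ⟨hf, hF⟩
  | succ m ih =>
    obtain ⟨h1, h2⟩ := ih
    refine ⟨?_, ?_⟩
    · have := h1.deriv h2 hU
      simpa only [iteratedDeriv_succ, Function.comp_def] using this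
    · filter_upwards [h2] with n hn
      rw [iteratedDeriv_succ]
      exact hn.deriv hU

/-- Iterated derivative of a polynomial function. -/
theorem iteratedDeriv_polynomial_eval (m : ℕ) (P : Polynomial ℂ) :
    iteratedDeriv m (fun q => P.eval q) = fun q => (Polynomial.derivative^[m] P).eval q := by
  induction m generalizing P with
  | zero => simp
  | succ m ih =>
    rw [iteratedDeriv_succ']
    have : deriv (fun q => P.eval q) = fun q => (Polynomial.derivative P).eval q := by
      funext q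
      exact Polynomial.deriv P
    rw [this, ih, Function.iterate_succ_apply]

theorem iteratedDeriv_polynomial_eval_zero (m : ℕ) (P : Polynomial ℂ) :
    iteratedDeriv m (fun q => P.eval q) 0 = (m.factorial : ℂ) * P.coeff m := by
  rw [iteratedDeriv_polynomial_eval]
  show Polynomial.eval 0 _ = _
  rw [← Polynomial.coeff_zero_eq_eval_zero, Polynomial.coeff_iterate_derivative]
  simp [Nat.descFactorial_self]

/-- The finite partial products of `∏ (1 - X^(n+1))` as polynomials over `ℂ`. -/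
def etaPoly (s : Finset ℕ) : Polynomial ℂ := ∏ n ∈ s, (1 - Polynomial.X ^ (n + 1))

theorem etaPoly_eval (s : Finset ℕ) (q : ℂ) :
    (etaPoly s).eval q = ∏ n ∈ s, (1 - q ^ (n + 1)) := by
  simp [etaPoly, Polynomial.eval_prod]

theorem etaPoly_coeff (s : Finset ℕ) (m : ℕ) :
    (etaPoly s).coeff m =
      (((∏ n ∈ s, (1 - PowerSeries.X ^ (n + 1)) : PowerSeries ℤ).coeff m : ℤ) : ℂ) := by
  have h1 : ((etaPoly s : Polynomial ℂ) : PowerSeries ℂ) =
      PowerSeries.map (Int.castRingHom ℂ)
        (∏ n ∈ s, (1 - PowerSeries.X ^ (n + 1)) : PowerSeries ℤ) := by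
    rw [etaPoly, ← Polynomial.coeToPowerSeries.ringHom_apply, map_prod, map_prod]
    refine Finset.prod_congr rfl fun n _ => ?_
    simp
  have h2 := congrArg (PowerSeries.coeff m) h1
  rw [Polynomial.coeff_coe, PowerSeries.coeff_map] at h2
  simpa using h2

theorem tendsto_coeff_etaProd (m : ℕ) :
    Tendsto (fun s : Finset ℕ => (∏ n ∈ s, (1 - PowerSeries.X ^ (n + 1)) : PowerSeries ℤ).coeff m)
      atTop (𝓝 (ModularCurve.etaProd.coeff m)) := by
  open scoped PowerSeries.WithPiTopology in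
  exact ((PowerSeries.WithPiTopology.continuous_coeff ℤ m).tendsto _).comp
    (PowerSeries.WithPiTopology.multipliable_one_sub_X_pow ℤ).hasProd

/-- The analytic Euler product on the unit disc. -/
def etaFun (q : ℂ) : ℂ := ∏' n : ℕ, (1 - q ^ (n + 1))

theorem differentiableOn_etaFun : DifferentiableOn ℂ etaFun (Metric.ball (0 : ℂ) 1) :=
  ModularForm.differentiableOn_tprod_one_sub_pow

/-- **Taylor coefficients of the analytic Euler product are the formal ones.** -/
theorem iteratedDeriv_etaFun_zero (m : ℕ) :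
    iteratedDeriv m etaFun 0 = (m.factorial : ℂ) * ((ModularCurve.etaProd.coeff m : ℤ) : ℂ) := by
  have hloc : TendstoLocallyUniformlyOn
      (fun (s : Finset ℕ) (q : ℂ) => ∏ n ∈ s, (1 - q ^ (n + 1))) etaFun atTop
      (Metric.ball (0 : ℂ) 1) := by
    have := ModularForm.multipliableLocallyUniformlyOn_one_sub_pow.hasProdLocallyUniformlyOn
    have h' : etaFun = fun x : ℂ => ∏' (i : ℕ), (1 - x ^ (i + 1)) := rfl
    rw [h']
    simpa [HasProdLocallyUniformlyOn] using this
  have hdiff : ∀ᶠ s : Finset ℕ in atTop,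
      DifferentiableOn ℂ (fun q : ℂ => ∏ n ∈ s, (1 - q ^ (n + 1))) (Metric.ball (0 : ℂ) 1) :=
    .of_forall fun s => by
      simpa [Finset.prod_fn] using
        DifferentiableOn.finsetProd (u := s) (f := fun (n : ℕ) (q : ℂ) => 1 - q ^ (n + 1))
          (s := Metric.ball (0 : ℂ) 1) (fun _ _ => by fun_prop)
  have h1 := (tendstoLocallyUniformlyOn_iteratedDeriv Metric.isOpen_ball hloc hdiff m).1.tendsto_at
    (Metric.mem_ball_self one_pos)
  have h2 : ∀ s : Finset ℕ, iteratedDeriv m (fun q : ℂ => ∏ n ∈ s, (1 - q ^ (n + 1))) 0 =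
      (m.factorial : ℂ) *
        (((∏ n ∈ s, (1 - PowerSeries.X ^ (n + 1)) : PowerSeries ℤ).coeff m : ℤ) : ℂ) := by
    intro s
    have : (fun q : ℂ => ∏ n ∈ s, (1 - q ^ (n + 1))) = fun q => (etaPoly s).eval q := by
      funext q; rw [etaPoly_eval]
    rw [this, iteratedDeriv_polynomial_eval_zero, etaPoly_coeff]
  simp only [h2] at h1
  have h3 : Tendsto (fun s : Finset ℕ => (m.factorial : ℂ) *
        (((∏ n ∈ s, (1 - PowerSeries.X ^ (n + 1)) : PowerSeries ℤ).coeff m : ℤ) : ℂ)) atTop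
      (𝓝 ((m.factorial : ℂ) * ((ModularCurve.etaProd.coeff m : ℤ) : ℂ))) := by
    refine Tendsto.const_mul _ ?_
    exact (continuous_of_discreteTopology (f := fun z : ℤ => (z : ℂ))).continuousAt.tendsto.comp
      (tendsto_coeff_etaProd m)
  exact tendsto_nhds_unique h1 h3

open UpperHalfPlane Function

local notation "𝕢" => Periodic.qParam

/-- If `f τ = G (q(τ))` with `G` continuous at `0`, then the cusp function of `f` is `G` on the
open unit disc. -/
theorem cuspFunction_eqOn_of_comp {G : ℂ → ℂ} (hG : ContinuousAt G 0) {f : ℍ → ℂ}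
    (hf : ∀ τ : ℍ, f τ = G (𝕢 1 τ)) :
    Set.EqOn (cuspFunction 1 f) G (Metric.ball 0 1) := by
  have hne : ∀ q : ℂ, q ≠ 0 → ‖q‖ < 1 → (f ∘ ofComplex) (Periodic.invQParam 1 q) = G q := by
    intro q hq0 hq
    have him := Periodic.im_invQParam_pos_of_norm_lt_one one_pos hq hq0
    simp only [Function.comp_apply, ofComplex_apply_of_im_pos him, hf]
    congr 1
    exact Periodic.qParam_right_inv one_ne_zero hq0
  intro q hq
  have hq' : ‖q‖ < 1 := by simpa using hq
  by_cases hq0 : q = 0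
  · subst hq0
    simp only [cuspFunction, Periodic.cuspFunction, update_self]
    refine Tendsto.limUnder_eq ?_
    refine (tendsto_nhdsWithin_of_tendsto_nhds hG.tendsto).congr' ?_
    have hball : ∀ᶠ x : ℂ in 𝓝[≠] 0, ‖x‖ < 1 := by
      refine eventually_nhdsWithin_of_eventually_nhds ?_
      have := Metric.ball_mem_nhds (0 : ℂ) one_pos
      filter_upwards [this] with x hx using by simpa using hx
    filter_upwards [hball, self_mem_nhdsWithin] with x hx hx0
    exact (hne x hx0 hx).symm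
  · simp only [cuspFunction, Periodic.cuspFunction_eq_of_nonzero 1 _ hq0]
    exact hne q hq0 hq'

theorem qExpansion_coeff_of_comp {G : ℂ → ℂ} (hG : ContinuousAt G 0) {f : ℍ → ℂ}
    (hf : ∀ τ : ℍ, f τ = G (𝕢 1 τ)) (m : ℕ) :
    (qExpansion 1 f).coeff m = (m.factorial : ℂ)⁻¹ * iteratedDeriv m G 0 := by
  rw [qExpansion_coeff]
  congr 1
  have : cuspFunction 1 f =ᶠ[𝓝 0] G :=
    (cuspFunction_eqOn_of_comp hG hf).eventuallyEq_of_mem (Metric.ball_mem_nhds 0 one_pos)
  exact this.iteratedDeriv_eq m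

theorem analyticAt_cuspFunction_of_comp {G : ℂ → ℂ}
    (hG : DifferentiableOn ℂ G (Metric.ball 0 1)) {f : ℍ → ℂ}
    (hf : ∀ τ : ℍ, f τ = G (𝕢 1 τ)) : AnalyticAt ℂ (cuspFunction 1 f) 0 := by
  have hGa : AnalyticAt ℂ G 0 := hG.analyticAt (Metric.ball_mem_nhds 0 one_pos)
  refine hGa.congr ?_
  exact ((cuspFunction_eqOn_of_comp hGa.continuousAt hf).eventuallyEq_of_mem
    (Metric.ball_mem_nhds 0 one_pos)).symm

/-- The Euler product as a function on the upper half plane. -/
def etaH (τ : ℍ) : ℂ := etaFun (𝕢 1 τ)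

theorem etaH_eq (τ : ℍ) : etaH τ = ∏' n : ℕ, (1 - ModularForm.eta_q n τ) := rfl

theorem continuousAt_etaFun_zero : ContinuousAt etaFun 0 :=
  (differentiableOn_etaFun.analyticAt (Metric.ball_mem_nhds 0 one_pos)).continuousAt

/-- **The `q`-expansion of the Euler product is the formal Euler product.** -/
theorem qExpansion_etaH :
    qExpansion 1 etaH = PowerSeries.map (Int.castRingHom ℂ) ModularCurve.etaProd := by
  ext m
  rw [qExpansion_coeff_of_comp (f := etaH) continuousAt_etaFun_zero (fun _ => rfl),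
    iteratedDeriv_etaFun_zero, PowerSeries.coeff_map]
  have : (m.factorial : ℂ) ≠ 0 := by exact_mod_cast m.factorial_ne_zero
  simp [this]

theorem analyticAt_cuspFunction_etaH : AnalyticAt ℂ (cuspFunction 1 etaH) 0 :=
  analyticAt_cuspFunction_of_comp differentiableOn_etaFun (fun _ => rfl)

/-- `f : ℍ → ℂ` is represented on the unit disc by the holomorphic function `G`:
`f τ = G (q(τ))`. -/
structure DiscRep (f : ℍ → ℂ) (G : ℂ → ℂ) : Prop where
  diff : DifferentiableOn ℂ G (Metric.ball 0 1)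
  eq : ∀ τ : ℍ, f τ = G (𝕢 1 τ)

namespace DiscRep

variable {f g : ℍ → ℂ} {F G : ℂ → ℂ}

theorem analyticAt_zero (h : DiscRep f F) : AnalyticAt ℂ F 0 :=
  h.diff.analyticAt (Metric.ball_mem_nhds 0 one_pos)

theorem analyticAt_cuspFunction (h : DiscRep f F) : AnalyticAt ℂ (cuspFunction 1 f) 0 :=
  analyticAt_cuspFunction_of_comp h.diff h.eq

theorem qExpansion_coeff (h : DiscRep f F) (m : ℕ) :
    (qExpansion 1 f).coeff m = (m.factorial : ℂ)⁻¹ * iteratedDeriv m F 0 :=
  qExpansion_coeff_of_comp h.analyticAt_zero.continuousAt h.eq m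

theorem mul (hf : DiscRep f F) (hg : DiscRep g G) : DiscRep (f * g) (F * G) :=
  ⟨hf.diff.mul hg.diff, fun τ => by simp [hf.eq τ, hg.eq τ]⟩

theorem pow (hf : DiscRep f F) (k : ℕ) : DiscRep (f ^ k) (F ^ k) :=
  ⟨hf.diff.pow k, fun τ => by simp [hf.eq τ]⟩

theorem div (hf : DiscRep f F) (hg : DiscRep g G) (hG : ∀ q ∈ Metric.ball (0 : ℂ) 1, G q ≠ 0) :
    DiscRep (f / g) (F / G) :=
  ⟨hf.diff.div hg.diff hG, fun τ => by simp [hf.eq τ, hg.eq τ]⟩

theorem qExpansion_mul (hf : DiscRep f F) (hg : DiscRep g G) :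
    qExpansion 1 (f * g) = qExpansion 1 f * qExpansion 1 g :=
  UpperHalfPlane.qExpansion_mul hf.analyticAt_cuspFunction hg.analyticAt_cuspFunction

theorem qExpansion_pow (hf : DiscRep f F) (k : ℕ) :
    qExpansion 1 (f ^ k) = qExpansion 1 f ^ k := by
  induction k with
  | zero => simpa using qExpansion_one 1
  | succ k ih => rw [pow_succ, (hf.pow k).qExpansion_mul hf, ih, pow_succ]

/-- The `q`-expansion of a disc-represented function converges to it. -/
theorem hasSum (hf : DiscRep f F) (τ : ℍ) :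
    HasSum (fun m : ℕ => (qExpansion 1 f).coeff m * 𝕢 1 τ ^ m) (f τ) := by
  have hq : 𝕢 1 (τ : ℂ) ∈ Metric.ball (0 : ℂ) 1 := by
    simpa using Periodic.norm_qParam_lt_one one_pos τ.im_pos
  have := hasSum_taylorSeries_on_ball hf.diff hq
  rw [hf.eq τ]
  have hfun : (fun m : ℕ => (qExpansion 1 f).coeff m * 𝕢 1 τ ^ m) =
      fun n : ℕ => ((n.factorial : ℂ))⁻¹ • (𝕢 1 (τ : ℂ) - 0) ^ n • iteratedDeriv n F 0 := by
    funext m
    rw [hf.qExpansion_coeff]
    simp only [sub_zero, smul_eq_mul]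
    ring
  rw [hfun]
  exact this

end DiscRep

theorem discRep_etaH : DiscRep etaH etaFun := ⟨differentiableOn_etaFun, fun _ => rfl⟩

/-- The function `τ ↦ q(τ)`. -/
def qH (τ : ℍ) : ℂ := 𝕢 1 τ

theorem discRep_qH : DiscRep qH id := ⟨differentiableOn_id, fun _ => rfl⟩

theorem qExpansion_qH : qExpansion 1 qH = PowerSeries.X := by
  ext m
  rw [discRep_qH.qExpansion_coeff]
  have h1 : (id : ℂ → ℂ) = fun q => (Polynomial.X : Polynomial ℂ).eval q := by
    funext q; simp
  rw [h1, iteratedDeriv_polynomial_eval_zero, PowerSeries.coeff_X, Polynomial.coeff_X]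
  have : (m.factorial : ℂ) ≠ 0 := by exact_mod_cast m.factorial_ne_zero
  by_cases hm : m = 1
  · subst hm; simp
  · simp [hm, Ne.symm hm]

open ModularForm EisensteinSeries MatrixGroups

/-- Level-one modular forms are represented on the disc by their cusp function. -/
theorem discRep_modularForm {k : ℤ} (f : ModularForm 𝒮ℒ k) :
    DiscRep (f : ℍ → ℂ) (cuspFunction 1 f) :=
  ⟨differentiableOn_cuspFunction_ball one_pos
      (SlashInvariantFormClass.periodic_comp_ofComplex f one_mem_strictPeriods_SL)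
      (ModularFormClass.holo f) (ModularFormClass.bdd_at_infty f),
    fun τ => (eq_cuspFunction τ one_ne_zero
      (SlashInvariantFormClass.periodic_comp_ofComplex f one_mem_strictPeriods_SL)).symm⟩

theorem discriminant_eq_qH_mul : (ModularForm.discriminant : ℍ → ℂ) = qH * etaH ^ 24 := by
  funext τ
  rw [ModularForm.discriminant_eq_q_prod]
  simp only [Pi.mul_apply, Pi.pow_apply, qH, etaH, etaFun]
  congr 1
  exact (ModularForm.multipliable_one_sub_pow
    (Periodic.norm_qParam_lt_one one_pos τ.im_pos)).tprod_pow 24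

theorem discRep_etaH_pow : DiscRep (etaH ^ 24) (etaFun ^ 24) := discRep_etaH.pow 24

theorem qExpansion_etaH_pow :
    qExpansion 1 (etaH ^ 24) = PowerSeries.map (Int.castRingHom ℂ) ModularCurve.dedekindEtaUnit := by
  rw [discRep_etaH.qExpansion_pow, qExpansion_etaH, ModularCurve.dedekindEtaUnit, map_pow]

/-- **`q`-expansion of `Δ` in terms of the Prelude's formal `η`-product.** -/
theorem qExpansion_discriminant :
    qExpansion 1 (ModularForm.discriminant : ℍ → ℂ) =
      PowerSeries.X * PowerSeries.map (Int.castRingHom ℂ) ModularCurve.dedekindEtaUnit := by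
  rw [discriminant_eq_qH_mul, discRep_qH.qExpansion_mul discRep_etaH_pow, qExpansion_qH,
    qExpansion_etaH_pow]

/-- **`q`-expansion of `E₄` is the Prelude's `eisenstein4`.** -/
theorem qExpansion_E4 :
    qExpansion 1 (E₄ : ℍ → ℂ) = PowerSeries.map (Int.castRingHom ℂ) ModularCurve.eisenstein4 := by
  ext m
  rw [E_qExpansion_coeff _ ⟨2, rfl⟩]
  simp only [ModularCurve.eisenstein4, PowerSeries.coeff_map, PowerSeries.coeff_mk]
  split_ifs with h
  · simp
  · rw [ArithmeticFunction.sigma_apply]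
    norm_num [show bernoulli 4 = -1 / 30 by decide +kernel]

theorem etaFun_ne_zero {q : ℂ} (hq : ‖q‖ < 1) : etaFun q ≠ 0 := by
  refine tprod_one_add_ne_zero_of_summable (f := fun n : ℕ => -q ^ (n + 1)) ?_ ?_
  · intro n h
    have h1 : q ^ (n + 1) = 1 := by
      have : (1 : ℂ) + -q ^ (n + 1) = 0 := h
      linear_combination -this
    have h2 : ‖q‖ ^ (n + 1) = 1 := by rw [← norm_pow, h1, norm_one]
    have h3 : ‖q‖ ^ (n + 1) < 1 := pow_lt_one₀ (norm_nonneg _) hq (by omega)
    linarith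
  · simpa using (summable_nat_add_iff 1).mpr (summable_geometric_of_lt_one (norm_nonneg _) hq)

/-- The analytic `j`-function `E₄³ / Δ` on the upper half plane. -/
def jH (τ : ℍ) : ℂ := E₄ τ ^ 3 / ModularForm.discriminant τ

/-- `q · j = E₄³ / ∏ (1 - qⁿ)²⁴`. -/
def qjH : ℍ → ℂ := (E₄ : ℍ → ℂ) ^ 3 / etaH ^ 24

theorem qjH_eq (τ : ℍ) : qjH τ = 𝕢 1 τ * jH τ := by
  have hΔ : ModularForm.discriminant τ = qH τ * etaH τ ^ 24 := by
    rw [discriminant_eq_qH_mul]; rfl
  have hq : qH τ ≠ 0 := Periodic.qParam_ne_zero _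
  have he : etaH τ ≠ 0 := etaFun_ne_zero (Periodic.norm_qParam_lt_one one_pos τ.im_pos)
  simp only [qjH, jH, Pi.div_apply, Pi.pow_apply, hΔ]
  change _ = qH τ * _
  field_simp

theorem discRep_qjH : DiscRep qjH (cuspFunction 1 E₄ ^ 3 / etaFun ^ 24) :=
  ((discRep_modularForm E₄).pow 3).div discRep_etaH_pow
    (fun q hq => pow_ne_zero _ (etaFun_ne_zero (by simpa using hq)))

/-- **The `q`-expansion of `q · j` is the Prelude's formal series `jNum`.** -/
theorem qExpansion_qjH :
    qExpansion 1 qjH = PowerSeries.map (Int.castRingHom ℂ) ModularCurve.jNum := by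
  have h1 : qjH * etaH ^ 24 = (E₄ : ℍ → ℂ) ^ 3 := by
    funext τ
    have he : etaH τ ≠ 0 := etaFun_ne_zero (Periodic.norm_qParam_lt_one one_pos τ.im_pos)
    simp only [qjH, Pi.mul_apply, Pi.div_apply, Pi.pow_apply]
    field_simp
  have h2 := discRep_qjH.qExpansion_mul discRep_etaH_pow
  rw [h1, (discRep_modularForm E₄).qExpansion_pow, qExpansion_E4, qExpansion_etaH_pow] at h2
  have h3 : PowerSeries.map (Int.castRingHom ℂ) ModularCurve.dedekindEtaUnit *
      PowerSeries.map (Int.castRingHom ℂ) ModularCurve.dedekindEtaUnitInv = 1 := by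
    rw [← map_mul, ModularCurve.dedekindEtaUnit_mul_inv, map_one]
  calc qExpansion 1 qjH
      = qExpansion 1 qjH * (PowerSeries.map (Int.castRingHom ℂ) ModularCurve.dedekindEtaUnit *
          PowerSeries.map (Int.castRingHom ℂ) ModularCurve.dedekindEtaUnitInv) := by
        rw [h3, mul_one]
    _ = PowerSeries.map (Int.castRingHom ℂ) ModularCurve.eisenstein4 ^ 3 *
          PowerSeries.map (Int.castRingHom ℂ) ModularCurve.dedekindEtaUnitInv := by
        rw [← mul_assoc, ← h2]
    _ = PowerSeries.map (Int.castRingHom ℂ) ModularCurve.jNum := by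
        rw [ModularCurve.jNum, map_mul, map_pow]

/-- **Analytic `q`-expansion of `j`** : for every `τ ∈ ℍ`,
`q · j(τ) = ∑ₙ jNum_n qⁿ` with `q = exp (2πiτ)`. -/
theorem hasSum_jNum (τ : ℍ) :
    HasSum (fun n : ℕ => ((ModularCurve.jNum.coeff n : ℤ) : ℂ) * 𝕢 1 τ ^ n)
      (𝕢 1 τ * (E₄ τ ^ 3 / ModularForm.discriminant τ)) := by
  have h := discRep_qjH.hasSum τ
  rw [qjH_eq, qExpansion_qjH] at h
  simpa [jH, PowerSeries.coeff_map] using h

theorem hasSum_jNum' (τ : ℍ) :
    HasSum (fun n : ℕ => ((ModularCurve.jNum.coeff n : ℤ) : ℂ) *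
        cexp (2 * Real.pi * Complex.I * τ) ^ n)
      (cexp (2 * Real.pi * Complex.I * τ) * (E₄ τ ^ 3 / ModularForm.discriminant τ)) := by
  have h := hasSum_jNum τ
  have hq : 𝕢 1 (τ : ℂ) = cexp (2 * Real.pi * Complex.I * τ) := by simp [Periodic.qParam]
  rwa [hq] at h

end Fermat.Agent.S24.H940
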